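import Fermat.Agent.Newforms.StrongOne

/-!
# The space of forms is spanned by raised newforms

Consequently a form with the Hecke eigenvalues of a newform `g` outside a finite set of primes is
a combination of the raisings of `g`.
-/

set_option autoImplicit false

noncomputable section

open CongruenceSubgroup ModularFormClass

namespace Fermat.Agent.Newforms

/-- The raisings to level `N` of the newforms. -/
def raisedNewforms (N : ℕ) [NeZero N] : Set (CuspForm (Gamma0 N) 2) :=
  {F | ∃ (M d : ℕ) (_ : NeZero M) (h : d * M ∣ N) (g : CuspForm (Gamma0 M) 2),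
    g.IsNewform ∧ levelRaise d h g = F}

/-- The span of the raisings to level `N` of one form. -/
def raisedSpan {M : ℕ} (g : CuspForm (Gamma0 M) 2) (N : ℕ) [NeZero N] :
    Submodule ℂ (CuspForm (Gamma0 N) 2) :=
  Submodule.span ℂ {F | ∃ (d : ℕ) (h : d * M ∣ N), levelRaise d h g = F}

theorem levelRaise_levelRaise {A B N d e : ℕ} [NeZero B] [NeZero N] (h : d * A ∣ B)
    (h' : e * B ∣ N) (h'' : e * d * A ∣ N) (g : CuspForm (Gamma0 A) 2) :
    levelRaise e h' (levelRaise d h g) = levelRaise (e * d) h'' g := by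
  refine eq_of_forall_qCoeff fun n => ?_
  rw [qCoeff_levelRaise, qCoeff_levelRaise, qCoeff_levelRaise]
  have he : 0 < e := Nat.pos_of_ne_zero fun h0 => NeZero.ne N (by simpa [h0] using h')
  by_cases hen : e ∣ n
  · obtain ⟨k, rfl⟩ := hen
    rw [if_pos (dvd_mul_right e k), Nat.mul_div_cancel_left k he]
    by_cases hdk : d ∣ k
    · rw [if_pos hdk, if_pos (Nat.mul_dvd_mul_left e hdk), Nat.mul_div_mul_left k d he]
    · rw [if_neg hdk, if_neg fun hc => hdk ((Nat.mul_dvd_mul_iff_left he).1 hc)]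
  · rw [if_neg hen, if_neg fun hc => hen ((dvd_mul_right e d).trans hc)]

/-- The raised newforms span. -/
theorem span_raisedNewforms_eq_top :
    ∀ (N : ℕ) [NeZero N], Submodule.span ℂ (raisedNewforms N) = ⊤ := by
  intro N
  induction N using Nat.strong_induction_on with
  | h N ih =>
    intro hN
    rw [eq_top_iff, ← span_eigenvectors_eq_top, Submodule.span_le]
    intro f hf
    rcases eq_or_ne f 0 with rfl | hf0
    · exact zero_mem _
    choose c hc using hf
    obtain ⟨g₀, hg₀, hgc⟩ := exists_eigenform_of_eigen hf0 (fun ℓ => ¬ ℓ ∣ N)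
      (fun ℓ => if h : ℓ.Prime ∧ ¬ ℓ ∣ N then c ℓ h.1 h.2 else 0)
      (fun ℓ hℓ hℓN => by rw [dif_pos ⟨hℓ, hℓN⟩]; exact hc ℓ hℓ hℓN)
    obtain ⟨M, g, hMN, hg, hgg⟩ := exists_newform hg₀
    have : NeZero M := ⟨fun h0 => NeZero.ne N (Nat.eq_zero_of_zero_dvd (h0 ▸ hMN))⟩
    have hG : levelIncl hMN g ∈ Submodule.span ℂ (raisedNewforms N) :=
      Submodule.subset_span ⟨M, 1, inferInstance, by rwa [one_mul], g, hg, rfl⟩
    set f₁ := f - qCoeff f 1 • levelIncl hMN g with hf₁
    have hf₁eig : ∀ ℓ (hℓ : ℓ.Prime), ¬ ℓ ∣ N → hOp N hℓ f₁ = qCoeff g ℓ • f₁ := by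
      intro ℓ hℓ hℓN
      have hcg : c ℓ hℓ hℓN = qCoeff g ℓ := by
        rw [hgg ℓ hℓ hℓN, hgc ℓ hℓ hℓN, dif_pos ⟨hℓ, hℓN⟩]
      rw [hf₁, map_sub, map_smul, hc ℓ hℓ hℓN, hcg,
        hOp_levelIncl hℓ hMN ⟨fun h => absurd h hℓN, fun h => h.trans hMN⟩,
        hOp_of_isNormalizedEigenform hg.1 hℓ, map_smul, smul_sub, smul_comm]
    have hf₁one : qCoeff f₁ 1 = 0 := by
      have h := map_sub (coeffLin (N := N) (k := 2) 1) f (qCoeff f 1 • levelIncl hMN g)
      simp only [map_smul, coeffLin_apply, qCoeff_levelIncl, hg.1.qCoeff_one, smul_eq_mul,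
        mul_one, sub_self] at h
      exact h
    obtain ⟨u, hu⟩ := exists_eq_sum_levelRaise f₁ (qCoeff_eq_zero_of_coprime hf₁eig hf₁one)
    have hf₁mem : f₁ ∈ Submodule.span ℂ (raisedNewforms N) := by
      rw [hu]
      refine Submodule.sum_mem _ fun p _ => ?_
      have hp := Nat.prime_of_mem_primeFactors p.2
      have hpN := Nat.dvd_of_mem_primeFactors p.2
      have : NeZero (N / (p : ℕ)) :=
        ⟨(Nat.div_pos (Nat.le_of_dvd (Nat.pos_of_ne_zero (NeZero.ne N)) hpN) hp.pos).ne'⟩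
      have htop : u p ∈ Submodule.span ℂ (raisedNewforms (N / (p : ℕ))) := by
        rw [ih _ (Nat.div_lt_self (Nat.pos_of_ne_zero (NeZero.ne N)) hp.one_lt)]
        exact Submodule.mem_top
      have hmap := Submodule.mem_map_of_mem
        (f := levelRaise (N := N) (p : ℕ) (Nat.mul_div_cancel' hpN).dvd) htop
      rw [Submodule.map_span] at hmap
      refine Submodule.span_mono ?_ hmap
      rintro _ ⟨F, ⟨M', d, hM', h', g', hg', rfl⟩, rfl⟩
      have h'' : (p : ℕ) * d * M' ∣ N := by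
        rw [mul_assoc]
        exact (Nat.mul_dvd_mul_left _ h').trans (Nat.mul_div_cancel' hpN).dvd
      exact ⟨M', (p : ℕ) * d, hM', h'', g', hg', (levelRaise_levelRaise h' _ h'' g').symm⟩
    have : f = f₁ + qCoeff f 1 • levelIncl hMN g := by rw [hf₁, sub_add_cancel]
    rw [SetLike.mem_coe, this]
    exact add_mem hf₁mem (Submodule.smul_mem _ _ hG)

variable {N : ℕ} [NeZero N]

theorem hOp_raised {M d ℓ : ℕ} [NeZero M] {g : CuspForm (Gamma0 M) 2}
    (hg : g.IsNormalizedEigenform) (hℓ : ℓ.Prime) (hℓN : ¬ ℓ ∣ N) (h : d * M ∣ N) :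
    hOp N hℓ (levelRaise d h g) = qCoeff g ℓ • levelRaise d h g := by
  rw [hOp_levelRaise hℓ h (fun hc => hℓN (hc.trans ((dvd_mul_right d M).trans h)))
    ⟨fun hc => absurd hc hℓN, fun hc => hc.trans ((dvd_mul_left M d).trans h)⟩,
    hOp_of_isNormalizedEigenform hg hℓ, map_smul]

/-- A form with the eigenvalues of a newform outside a finite set is in the span of its
raisings. -/
theorem mem_raisedSpan_of_eigen {M : ℕ} [NeZero M] {g : CuspForm (Gamma0 M) 2} (hg : g.IsNewform)
    {S : Finset ℕ} (hS : ∀ q : ℕ, q.Prime → q ∣ N → q ∈ S) {f : CuspForm (Gamma0 N) 2}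
    (hf : ∀ ℓ (hℓ : ℓ.Prime), ℓ ∉ S → hOp N hℓ f = qCoeff g ℓ • f) :
    f ∈ raisedSpan g N := by
  classical
  obtain ⟨T, hT, hfT⟩ := Submodule.mem_span_finite_of_mem_span
    (show f ∈ Submodule.span ℂ (raisedNewforms N) by
      rw [span_raisedNewforms_eq_top]; exact Submodule.mem_top)
  suffices hB : ∀ B : Finset (CuspForm (Gamma0 N) 2), ↑B ⊆ raisedNewforms N →
      ∀ x, (∀ ℓ (hℓ : ℓ.Prime), ℓ ∉ S → hOp N hℓ x = qCoeff g ℓ • x) →
        x ∈ raisedSpan g N ⊔ Submodule.span ℂ (B : Set (CuspForm (Gamma0 N) 2)) →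
        x ∈ raisedSpan g N from
    hB T hT f hf (Submodule.mem_sup_right hfT)
  intro B
  induction B using Finset.induction with
  | empty =>
    intro _ x _ hx
    simpa using hx
  | @insert b B hbB ih =>
    intro hB x hx hmem
    rw [Finset.coe_insert, Set.insert_subset_iff] at hB
    obtain ⟨⟨M', d, hM', hd, g', hg', rfl⟩, hB⟩ := hB
    rw [Finset.coe_insert, Submodule.span_insert] at hmem
    by_cases heq : ∀ ℓ : ℕ, ℓ.Prime → ℓ ∉ S → qCoeff g ℓ = qCoeff g' ℓ
    · obtain ⟨rfl, hgg⟩ := eq_of_almost_all hg hg' S heq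
      obtain rfl : g = g' := eq_of_forall_qCoeff hgg
      refine ih hB x hx ?_
      have hle : Submodule.span ℂ {levelRaise d hd g} ≤ raisedSpan g N :=
        Submodule.span_le.2 (Set.singleton_subset_iff.2 (Submodule.subset_span ⟨d, hd, rfl⟩))
      exact sup_le le_sup_left (sup_le (hle.trans le_sup_left) le_sup_right) hmem
    · push Not at heq
      obtain ⟨ℓ, hℓ, hℓS, hne⟩ := heq
      have hℓN : ¬ ℓ ∣ N := fun hc => hℓS (hS ℓ hℓ hc)
      refine ih hB x hx ?_
      set φ : Module.End ℂ (CuspForm (Gamma0 N) 2) := hOp N hℓ - qCoeff g' ℓ • 1 with hφ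
      have hφx : φ x = (qCoeff g ℓ - qCoeff g' ℓ) • x := by
        rw [hφ, LinearMap.sub_apply, LinearMap.smul_apply, Module.End.one_apply, hx ℓ hℓ hℓS,
          sub_smul]
      suffices h : φ x ∈ raisedSpan g N ⊔ Submodule.span ℂ (B : Set (CuspForm (Gamma0 N) 2)) by
        rw [hφx] at h
        exact (Submodule.smul_mem_iff _ (sub_ne_zero.2 hne)).1 h
      have hle : (raisedSpan g N ⊔ (Submodule.span ℂ {levelRaise d hd g'} ⊔
          Submodule.span ℂ (B : Set (CuspForm (Gamma0 N) 2)))).map φ ≤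
          raisedSpan g N ⊔ Submodule.span ℂ (B : Set (CuspForm (Gamma0 N) 2)) := by
        rw [Submodule.map_sup, Submodule.map_sup]
        refine sup_le ?_ (sup_le ?_ ?_)
        · rw [raisedSpan, Submodule.map_span, Submodule.span_le]
          rintro _ ⟨_, ⟨e, he, rfl⟩, rfl⟩
          refine Submodule.mem_sup_left ?_
          rw [hφ, LinearMap.sub_apply, LinearMap.smul_apply, Module.End.one_apply,
            hOp_raised hg.1 hℓ hℓN, ← sub_smul]
          exact Submodule.smul_mem _ _ (Submodule.subset_span ⟨e, he, rfl⟩)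
        · rw [Submodule.map_span, Set.image_singleton, Submodule.span_singleton_le_iff_mem, hφ,
            LinearMap.sub_apply, LinearMap.smul_apply, Module.End.one_apply,
            hOp_raised hg'.1 hℓ hℓN, sub_self]
          exact zero_mem _
        · rw [Submodule.map_span, Submodule.span_le]
          rintro _ ⟨b', hb', rfl⟩
          obtain ⟨M'', e, hM'', he, g'', hg'', rfl⟩ := hB hb'
          refine Submodule.mem_sup_right ?_
          rw [hφ, LinearMap.sub_apply, LinearMap.smul_apply, Module.End.one_apply,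
            hOp_raised hg''.1 hℓ hℓN, ← sub_smul]
          exact Submodule.smul_mem _ _ (Submodule.subset_span hb')
      exact hle (Submodule.mem_map_of_mem hmem)

end Fermat.Agent.Newforms
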