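import Mathlib.RingTheory.PowerSeries.Basic
import Fermat.Agent.Newforms.Semisimple
import Fermat.Agent.RT.Lift.Bound

/-!
# Strong multiplicity one

Two newforms whose coefficients agree outside a finite set of primes have the same level and are
equal: sieve both at the exceptional primes, compare the sieved forms before and after the Fricke
involution, and look at one prime at a time.
-/

set_option autoImplicit false

noncomputable section

open CongruenceSubgroup ModularFormClass UpperHalfPlane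
open scoped MatrixGroups ModularForm

namespace Fermat.Agent.Newforms

/-- The Fricke matrix `[[0, -1], [M, 0]]`. -/
def frickeData (M : ℕ) [NeZero M] : ALData M 1 where
  hq := NeZero.ne M
  x := 0
  y := -1
  z := 1
  v := 0
  eq_one := by simp

theorem val_fricke (M : ℕ) [NeZero M] :
    ((frickeData M).gl : Matrix (Fin 2) (Fin 2) ℝ) = !![0, -1; (M : ℝ), 0] := by
  ext i j
  fin_cases i <;> fin_cases j <;> simp [ALData.val_gl, ALData.intMat, frickeData, realMat]

/-- A newform is an eigenvector of the Fricke involution. -/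
theorem exists_fricke_eigen {M : ℕ} [NeZero M] {g : CuspForm (Gamma0 M) 2} (hg : g.IsNewform) :
    ∃ ε : ℂ, ε ≠ 0 ∧ ⇑g ∣[(2 : ℤ)] (frickeData M).gl = ε • ⇑g := by
  set D := frickeData M
  have hinv : ∀ γ ∈ Gamma0 (M * 1), ⇑g ∣[(2 : ℤ)] γ = ⇑g := fun γ hγ =>
    slash_gamma0_eq g (by rwa [mul_one] at hγ)
  obtain ⟨w, hw⟩ := D.gl_eq_ratGL
  let h : CuspForm (Gamma0 M) 2 := mkCusp (⇑g ∣[(2 : ℤ)] D.gl)
    (fun γ hγ => D.slash_gl_inv hinv (by rwa [mul_one])) (hw ▸ (isCuspFn_cuspForm g).slash w)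
  have hh : h = qCoeff h 1 • g := by
    refine eq_smul_of_eigen hg fun ℓ hℓ hℓM => ?_
    have : Fact ℓ.Prime := ⟨hℓ⟩
    rw [hOp_eq_heckeTLin hℓ hℓM]
    refine DFunLike.coe_injective ?_
    show ModularForm.heckeT 2 ℓ (⇑g ∣[(2 : ℤ)] D.gl) = qCoeff g ℓ • (⇑g ∣[(2 : ℤ)] D.gl)
    have hT : ModularForm.heckeT 2 ℓ ⇑g = qCoeff g ℓ • ⇑g := by
      have h := hOp_of_isNormalizedEigenform hg.1 hℓ
      rw [hOp_eq_heckeTLin hℓ hℓM] at h
      exact congrArg DFunLike.coe h
    rw [D.heckeT_slash_gl (by rwa [mul_one]) 2 hinv, hT, ModularForm.smul_slash, D.σ_gl,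
      ContinuousAlgEquiv.refl_apply]
  refine ⟨qCoeff h 1, fun h0 => hg.ne_zero (DFunLike.coe_injective ?_), congrArg DFunLike.coe hh⟩
  rw [h0, zero_smul] at hh
  have h1 : ⇑g ∣[(2 : ℤ)] D.gl = 0 := congrArg DFunLike.coe hh
  rw [← D.slash_gl_gl hinv, h1, SlashAction.zero_slash]
  rfl

section Sieve

/-- `∑ c i · a (r ^ (m - e i))`, the coefficient at `r ^ m` of a sieved eigenform. -/
def shiftT (a : ℕ → ℂ) (r : ℕ) (c : Fin 3 → ℂ) (e : Fin 3 → ℕ) (m : ℕ) : ℂ :=
  ∑ i, c i * if e i ≤ m then a (r ^ (m - e i)) else 0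

/-- `∑ c i X ^ e i`. -/
def shiftPoly (c : Fin 3 → ℂ) (e : Fin 3 → ℕ) : Polynomial ℂ :=
  ∑ i, Polynomial.C (c i) * Polynomial.X ^ e i

theorem shiftPoly_mul_mk (a : ℕ → ℂ) (r : ℕ) (c : Fin 3 → ℂ) (e : Fin 3 → ℕ) :
    (shiftPoly c e : PowerSeries ℂ) * PowerSeries.mk (fun m => a (r ^ m)) =
      PowerSeries.mk (shiftT a r c e) := by
  refine PowerSeries.ext fun m => ?_
  have h : ((shiftPoly c e : Polynomial ℂ) : PowerSeries ℂ) =
      ∑ i, PowerSeries.C (c i) * PowerSeries.X ^ e i := by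
    rw [← Polynomial.coeToPowerSeries.ringHom_apply, shiftPoly, map_sum]
    simp
  rw [h, Finset.sum_mul, map_sum, PowerSeries.coeff_mk, shiftT]
  refine Finset.sum_congr rfl fun i _ => ?_
  rw [mul_assoc, PowerSeries.coeff_C_mul, PowerSeries.coeff_X_pow_mul']
  simp

variable {N : ℕ} [NeZero N]

omit [NeZero N] in
theorem qCoeff_sum_levelRaise {N' r : ℕ} [NeZero N'] (hr : r.Prime) (c : Fin 3 → ℂ)
    (e : Fin 3 → ℕ) (he : ∀ i, r ^ e i * N ∣ N') (F : CuspForm (Gamma0 N) 2) (k x : ℕ)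
    (hx : ¬ r ∣ x) :
    qCoeff (∑ i, c i • levelRaise (r ^ e i) (he i) F : CuspForm (Gamma0 N') 2) (r ^ k * x) =
      ∑ i, c i * if e i ≤ k then qCoeff F (r ^ (k - e i) * x) else 0 := by
  refine (map_sum (coeffLin (N := N') (k := 2) (r ^ k * x)) _ _).trans
    (Finset.sum_congr rfl fun i _ => ?_)
  rw [coeffLin_apply, qCoeff_smul, qCoeff_levelRaise]
  congr 1
  by_cases hik : e i ≤ k
  · rw [if_pos hik, if_pos ((pow_dvd_pow r hik).mul_right x)]
    congr 1
    rw [← pow_mul_pow_sub r hik, mul_assoc, Nat.mul_div_cancel_left _ (pow_pos hr.pos _)]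
  · rw [if_neg hik, if_neg fun hd => hik ?_]
    exact (Nat.pow_dvd_pow_iff_le_right hr.one_lt).1
      (((hr.coprime_iff_not_dvd.2 hx).pow_left _).dvd_of_dvd_mul_right hd)

/-- The Fricke matrix of level `N r ^ K` after `diag (r ^ i, 1)`. -/
theorem levelRaise_slash_fricke {N' r K i : ℕ} [NeZero N'] (hr : r.Prime) (hi : i ≤ K)
    (hN' : N' = N * r ^ K) (h : r ^ i * N ∣ N') (h' : r ^ (K - i) * N ∣ N') {ε : ℂ}
    {F Fh : CuspForm (Gamma0 N) 2} (hF : ⇑F ∣[(2 : ℤ)] (frickeData N).gl = ε • ⇑Fh) :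
    ⇑(levelRaise (r ^ i) h F) ∣[(2 : ℤ)] (frickeData N').gl =
      (ε * ((r : ℂ) ^ K / (r : ℂ) ^ (2 * i))) • ⇑(levelRaise (r ^ (K - i)) h' Fh) := by
  have hd : r ^ i ≠ 0 := pow_ne_zero _ hr.ne_zero
  have he : r ^ (K - i) ≠ 0 := pow_ne_zero _ hr.ne_zero
  have hde : r ^ i * r ^ (K - i) = r ^ K := pow_mul_pow_sub r hi
  have key : (⇑F ∣[(2 : ℤ)] ModularForm.heckeDiagMatrix (r ^ i)) ∣[(2 : ℤ)] (frickeData N').gl =
      ε • (⇑Fh ∣[(2 : ℤ)] ModularForm.heckeDiagMatrix (r ^ (K - i))) := by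
    rw [← SlashAction.slash_mul, ALData.slash_two_of_smul
      (g' := (frickeData N).gl * ModularForm.heckeDiagMatrix (r ^ (K - i)))
      (Nat.cast_pos.2 (Nat.pos_of_ne_zero hd)) ?_ ?_, SlashAction.slash_mul, hF,
      ModularForm.smul_slash, ModularForm.σ_heckeDiagMatrix, ContinuousAlgEquiv.refl_apply]
    · rw [map_mul, Units.val_mul]
      refine mul_pos (frickeData N).det_gl_pos ?_
      rw [Matrix.GeneralLinearGroup.val_det_apply, ModularForm.val_heckeDiagMatrix he,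
        Matrix.det_fin_two_of]
      simpa using pow_pos (Nat.cast_pos.2 hr.pos : (0 : ℝ) < r) (K - i)
    · rw [Units.val_mul, Units.val_mul, val_fricke, val_fricke,
        ModularForm.val_heckeDiagMatrix hd, ModularForm.val_heckeDiagMatrix he, hN', ← hde]
      ext a b
      fin_cases a <;> fin_cases b <;> simp [Matrix.mul_apply, Fin.sum_univ_two] <;> ring
  show ((((r ^ i : ℕ) : ℂ) ^ ((2 : ℤ) - 1))⁻¹ • (⇑F ∣[(2 : ℤ)] ModularForm.heckeDiagMatrix (r ^ i)))
      ∣[(2 : ℤ)] (frickeData N').gl = _ • ((((r ^ (K - i) : ℕ) : ℂ) ^ ((2 : ℤ) - 1))⁻¹ •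
      (⇑Fh ∣[(2 : ℤ)] ModularForm.heckeDiagMatrix (r ^ (K - i))))
  rw [ModularForm.smul_slash, (frickeData N').σ_gl, ContinuousAlgEquiv.refl_apply, key, smul_smul,
    smul_smul]
  congr 1
  have hr0 : (r : ℂ) ≠ 0 := Nat.cast_ne_zero.2 hr.ne_zero
  rw [← pow_mul_pow_sub (r : ℂ) hi]
  push_cast
  simp only [zpow_one, two_mul, pow_add]
  field_simp

variable {M : ℕ} [NeZero M] (g : CuspForm (Gamma0 M) 2)

/-- The coefficients `1, - a_r, r` of the Euler polynomial. -/
def eulerC (r : ℕ) : Fin 3 → ℂ := ![1, -qCoeff g r, if r ∣ M then 0 else (r : ℂ)]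

/-- The coefficients of the transformed Euler polynomial. -/
def hatC (r K : ℕ) (i : Fin 3) : ℂ := eulerC g r i * ((r : ℂ) ^ K / (r : ℂ) ^ (2 * (i : ℕ)))

/-- The exponents of the transformed Euler polynomial. -/
def hatE (K : ℕ) (i : Fin 3) : ℕ := K - i

variable {g}

omit [NeZero M] in
theorem shiftT_euler (hg : g.IsNormalizedEigenform) {r : ℕ} (hr : r.Prime) (m : ℕ) :
    shiftT (qCoeff g) r (eulerC g r) (fun i => (i : ℕ)) m = if m = 0 then 1 else 0 := by
  rcases m with _ | _ | m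
  · simp [shiftT, eulerC, hg.qCoeff_one]
  · simp [shiftT, eulerC, Fin.sum_univ_three, hg.qCoeff_one]
  · rw [shiftT, Fin.sum_univ_three, if_neg (Nat.succ_ne_zero _)]
    by_cases hd : r ∣ M
    · simp [eulerC, hd, hg.qCoeff_prime_pow_of_dvd r m hr hd]
    · simp [eulerC, hd, hg.qCoeff_prime_pow_of_not_dvd r m hr hd]
      ring

/-- The sieved form, its image by the Fricke involution, and their coefficients. -/
theorem exists_sieve (hg : g.IsNormalizedEigenform) {ε : ℂ}
    (hW : ⇑g ∣[(2 : ℤ)] (frickeData M).gl = ε • ⇑g) (K : ℕ → ℕ) (hK : ∀ r, 2 ≤ K r)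
    (D : Finset ℕ) (hD : ∀ r ∈ D, r.Prime) :
    ∃ (L : ℕ) (_ : NeZero L) (F Fh : CuspForm (Gamma0 L) 2), L = M * ∏ r ∈ D, r ^ K r ∧
      ⇑F ∣[(2 : ℤ)] (frickeData L).gl = ε • ⇑Fh ∧
      ∀ (m : ℕ → ℕ) (n : ℕ), (∀ r ∈ D, ¬ r ∣ n) →
        qCoeff F ((∏ r ∈ D, r ^ m r) * n) =
          (∏ r ∈ D, shiftT (qCoeff g) r (eulerC g r) (fun i => (i : ℕ)) (m r)) * qCoeff g n ∧
        qCoeff Fh ((∏ r ∈ D, r ^ m r) * n) =
          (∏ r ∈ D, shiftT (qCoeff g) r (hatC g r (K r)) (hatE (K r)) (m r)) * qCoeff g n := by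
  classical
  induction D using Finset.induction with
  | empty => exact ⟨M, inferInstance, g, g, by simp, hW, fun m n _ => by simp⟩
  | @insert r D hrD ih =>
    obtain ⟨L, hL, F, Fh, hLeq, hFW, hco⟩ := ih fun s hs => hD s (Finset.mem_insert_of_mem hs)
    have hr : r.Prime := hD r (Finset.mem_insert_self r D)
    have : NeZero (L * r ^ K r) := ⟨mul_ne_zero (NeZero.ne L) (pow_ne_zero _ hr.ne_zero)⟩
    have hdvd : ∀ e, e ≤ K r → r ^ e * L ∣ L * r ^ K r := fun e he => by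
      rw [mul_comm L]; exact Nat.mul_dvd_mul_right (pow_dvd_pow r he) L
    have he1 : ∀ i : Fin 3, r ^ (i : ℕ) * L ∣ L * r ^ K r := fun i =>
      hdvd _ (by have := hK r; omega)
    have he2 : ∀ i : Fin 3, r ^ hatE (K r) i * L ∣ L * r ^ K r := fun i =>
      hdvd _ (Nat.sub_le _ _)
    refine ⟨L * r ^ K r, this, ∑ i, eulerC g r i • levelRaise (r ^ (i : ℕ)) (he1 i) F,
      ∑ i, hatC g r (K r) i • levelRaise (r ^ hatE (K r) i) (he2 i) Fh,
      by rw [Finset.prod_insert hrD, hLeq]; ring, ?_, fun m n hn => ?_⟩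
    · rw [FunLike.coe_sum, FunLike.coe_sum, SlashAction.sum_slash, Finset.smul_sum]
      refine Finset.sum_congr rfl fun i _ => ?_
      rw [FunLike.coe_smul, FunLike.coe_smul, ModularForm.smul_slash, ALData.σ_gl,
        ContinuousAlgEquiv.refl_apply,
        levelRaise_slash_fricke hr (by have := hK r; omega) rfl (he1 i) (he2 i) hFW, smul_smul,
        smul_smul, hatC]
      congr 1
      ring
    have hnD : ∀ s ∈ D, ¬ s ∣ n := fun s hs => hn s (Finset.mem_insert_of_mem hs)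
    have hx : ¬ r ∣ (∏ s ∈ D, s ^ m s) * n := fun hd => by
      rcases hr.dvd_mul.1 hd with hd | hd
      · obtain ⟨s, hs, hd⟩ := (Prime.dvd_finsetProd_iff hr.prime _).1 hd
        exact hrD (((Nat.prime_dvd_prime_iff_eq hr (hD s (Finset.mem_insert_of_mem hs))).1
          (hr.dvd_of_dvd_pow hd)) ▸ hs)
      · exact hn r (Finset.mem_insert_self r D) hd
    have hj : ∀ j, ∀ s ∈ D, ¬ s ∣ r ^ j * n := fun j s hs hd => by
      have hs' := hD s (Finset.mem_insert_of_mem hs)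
      rcases hs'.dvd_mul.1 hd with hd | hd
      · exact hrD ((Nat.prime_dvd_prime_iff_eq hs' hr).1 (hs'.dvd_of_dvd_pow hd) ▸ hs)
      · exact hnD s hs hd
    have hmul : ∀ j, qCoeff g (r ^ j * n) = qCoeff g (r ^ j) * qCoeff g n := fun j =>
      hg.qCoeff_mul_of_coprime _ _
        ((hr.coprime_iff_not_dvd.2 (hn r (Finset.mem_insert_self r D))).pow_left j)
    constructor
    · rw [Finset.prod_insert hrD, Finset.prod_insert hrD, mul_assoc (r ^ m r),
        qCoeff_sum_levelRaise hr _ _ he1 F _ _ hx, shiftT, Finset.sum_mul, Finset.sum_mul]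
      refine Finset.sum_congr rfl fun i _ => ?_
      split_ifs
      · rw [← mul_assoc, mul_comm (r ^ _), mul_assoc (∏ s ∈ D, s ^ m s),
          (hco m _ (hj _)).1, hmul]
        ring
      · ring
    · rw [Finset.prod_insert hrD, Finset.prod_insert hrD, mul_assoc (r ^ m r),
        qCoeff_sum_levelRaise hr _ _ he2 Fh _ _ hx, shiftT, Finset.sum_mul, Finset.sum_mul]
      refine Finset.sum_congr rfl fun i _ => ?_
      split_ifs
      · rw [← mul_assoc, mul_comm (r ^ _), mul_assoc (∏ s ∈ D, s ^ m s),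
          (hco m _ (hj _)).2, hmul]
        ring
      · ring

end Sieve

section Compare

theorem eval_shiftPoly (c : Fin 3 → ℂ) (e : Fin 3 → ℕ) (x : ℂ) :
    (shiftPoly c e).eval x = c 0 * x ^ e 0 + c 1 * x ^ e 1 + c 2 * x ^ e 2 := by
  simp [shiftPoly, Fin.sum_univ_three]

/-- The local datum at `r`: either `e = r` and `a ≠ ± (r + 1)`, or `e = 0` and `a ∈ {0, ± 1}`. -/
def LocalEuler (r : ℕ) (a e : ℂ) : Prop :=
  (e = r ∧ a ^ 2 ≠ ((r : ℂ) + 1) ^ 2) ∨ (e = 0 ∧ (a = 0 ∨ a ^ 2 = 1))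

variable {r : ℕ}

/-- The transformed polynomial has no root in common with the Euler polynomial. -/
theorem hat_ne_zero (hr : r.Prime) {a e x : ℂ} (h : LocalEuler r a e)
    (hx : 1 - a * x + e * x ^ 2 = 0) :
    x ^ 2 * (r : ℂ) ^ 4 - a * x * (r : ℂ) ^ 2 + e ≠ 0 := by
  have hr0 : (r : ℂ) ≠ 0 := Nat.cast_ne_zero.2 hr.ne_zero
  have hr1 : (r : ℂ) - 1 ≠ 0 := sub_ne_zero.2 (Nat.cast_ne_one.2 hr.ne_one)
  intro hh
  rcases h with ⟨rfl, ha⟩ | ⟨rfl, ha⟩
  · -- `x` and `r x` are roots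
    have hx0 : x ≠ 0 := by rintro rfl; simp at hx
    have h1 : a = (r : ℂ) * (r + 1) * x := by
      have h1 : ((r : ℂ) * ((r : ℂ) - 1) * x) * ((r : ℂ) * (r + 1) * x - a) = 0 := by
        linear_combination hh - (r : ℂ) * hx
      exact (sub_eq_zero.1 ((mul_eq_zero.1 h1).resolve_left
        (mul_ne_zero (mul_ne_zero hr0 hr1) hx0))).symm
    subst h1
    exact ha (by linear_combination -((r : ℂ) + 1) ^ 2 * hx)
  · rcases ha with rfl | ha
    · simp at hx
    · have hx2 : x ^ 2 = 1 := by linear_combination -(1 + a * x) * hx - x ^ 2 * ha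
      have h4 : (r : ℂ) ^ 2 * ((r : ℂ) ^ 2 - 1) = 0 := by
        linear_combination hh - (r : ℂ) ^ 2 * hx - (r : ℂ) ^ 4 * hx2
      have hr2 : (r : ℂ) ^ 2 - 1 ≠ 0 := by
        rw [sub_ne_zero]
        exact_mod_cast (Nat.one_lt_pow two_ne_zero hr.one_lt).ne'
      exact mul_ne_zero (pow_ne_zero 2 hr0) hr2 h4

theorem exists_root (hr : r.Prime) {a e : ℂ} (h : LocalEuler r a e) (hne : e = r ∨ a ≠ 0) :
    ∃ x : ℂ, 1 - a * x + e * x ^ 2 = 0 := by
  rcases h with ⟨rfl, -⟩ | ⟨rfl, -⟩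
  · have hr0 : (r : ℂ) ≠ 0 := Nat.cast_ne_zero.2 hr.ne_zero
    obtain ⟨s, hs⟩ := IsAlgClosed.exists_pow_nat_eq (a ^ 2 - 4 * r) (n := 2) two_pos
    refine ⟨(a + s) / (2 * r), ?_⟩
    field_simp
    linear_combination hs
  · have ha : a ≠ 0 := hne.resolve_left fun h => Nat.cast_ne_zero.2 hr.ne_zero h.symm
    exact ⟨a⁻¹, by rw [mul_inv_cancel₀ ha]; ring⟩

/-- One prime at a time. -/
theorem euler_eq_of_identity (hr : r.Prime) {a a' e e' κ : ℂ} {K K' : ℕ} (hK : 2 ≤ K)
    (hK' : 2 ≤ K') (h : LocalEuler r a e) (h' : LocalEuler r a' e')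
    (hid : shiftPoly ![(r : ℂ) ^ K, -a * ((r : ℂ) ^ K / (r : ℂ) ^ 2),
          e * ((r : ℂ) ^ K / (r : ℂ) ^ 4)] (hatE K) * shiftPoly ![1, -a', e'] (fun i => (i : ℕ)) =
      Polynomial.C κ * shiftPoly ![(r : ℂ) ^ K', -a' * ((r : ℂ) ^ K' / (r : ℂ) ^ 2),
          e' * ((r : ℂ) ^ K' / (r : ℂ) ^ 4)] (hatE K') *
        shiftPoly ![1, -a, e] (fun i => (i : ℕ))) :
    K = K' ∧ a = a' := by
  have hr0 : (r : ℂ) ≠ 0 := Nat.cast_ne_zero.2 hr.ne_zero
  have hP : ∀ (a e : ℂ) x, (shiftPoly ![1, -a, e] fun i => (i : ℕ)).eval x =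
      1 - a * x + e * x ^ 2 := fun a e x => by simp [eval_shiftPoly]; ring
  have hhat : ∀ (a e : ℂ) (K : ℕ), 2 ≤ K → ∀ x : ℂ,
      (shiftPoly ![(r : ℂ) ^ K, -a * ((r : ℂ) ^ K / (r : ℂ) ^ 2), e * ((r : ℂ) ^ K / (r : ℂ) ^ 4)]
        (hatE K)).eval x * (r : ℂ) ^ 4 =
        (r : ℂ) ^ K * x ^ (K - 2) * (x ^ 2 * (r : ℂ) ^ 4 - a * x * (r : ℂ) ^ 2 + e) := by
    intro a e K hK x
    obtain ⟨k, rfl⟩ : ∃ k, K = k + 2 := ⟨K - 2, by omega⟩
    rw [eval_shiftPoly]
    simp [hatE]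
    field_simp
    ring
  -- a root of one Euler polynomial is a root of the other
  have key : ∀ x, 1 - a * x + e * x ^ 2 = 0 → 1 - a' * x + e' * x ^ 2 = 0 := fun x hx => by
    have hx0 : x ≠ 0 := by rintro rfl; simp at hx
    have he := congrArg (fun P : Polynomial ℂ => P.eval x * (r : ℂ) ^ 4) hid
    simp only [Polynomial.eval_mul, hP, hx, mul_zero, zero_mul, mul_right_comm _ _ ((r : ℂ) ^ 4),
      hhat a e K hK x] at he
    exact (mul_eq_zero.1 he).resolve_left (mul_ne_zero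
      (mul_ne_zero (pow_ne_zero _ hr0) (pow_ne_zero _ hx0)) (hat_ne_zero hr h hx))
  have hne : shiftPoly ![1, -a, e] (fun i => (i : ℕ)) ≠ 0 := fun h0 => by
    simpa [hP] using congrArg (fun P : Polynomial ℂ => P.eval 0) h0
  have hcoeff : ∀ (a e : ℂ) (K : ℕ), 2 ≤ K → ∀ j, K ≤ j →
      (shiftPoly ![(r : ℂ) ^ K, -a * ((r : ℂ) ^ K / (r : ℂ) ^ 2), e * ((r : ℂ) ^ K / (r : ℂ) ^ 4)]
        (hatE K)).coeff j = if j = K then (r : ℂ) ^ K else 0 := by
    intro a e K hK j hj
    rw [shiftPoly, Fin.sum_univ_three]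
    simp only [hatE, Polynomial.coeff_add, Polynomial.coeff_C_mul, Polynomial.coeff_X_pow,
      Fin.val_zero, Fin.val_one, Fin.val_two, Matrix.cons_val_zero, Matrix.cons_val_one,
      Matrix.cons_val_two, Matrix.head_cons, Matrix.tail_cons, tsub_zero,
      if_neg (show j ≠ K - 1 by omega), if_neg (show j ≠ K - 2 by omega), mul_zero, add_zero,
      mul_ite, mul_one]
  have hκ : κ ≠ 0 := fun h0 => by
    rw [h0, map_zero, zero_mul, zero_mul, mul_eq_zero] at hid
    rcases hid with hh | hh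
    · have := congrArg (fun P : Polynomial ℂ => P.coeff K) hh
      simp only [hcoeff a e K hK K le_rfl, if_true, Polynomial.coeff_zero] at this
      exact pow_ne_zero _ hr0 this
    · simpa [hP] using congrArg (fun P : Polynomial ℂ => P.eval 0) hh
  have key' : ∀ x, 1 - a' * x + e' * x ^ 2 = 0 → 1 - a * x + e * x ^ 2 = 0 := fun x hx => by
    have hx0 : x ≠ 0 := by rintro rfl; simp at hx
    have he := congrArg (fun P : Polynomial ℂ => P.eval x * (r : ℂ) ^ 4) hid
    simp only [Polynomial.eval_mul, Polynomial.eval_C, hP, hx, mul_zero, zero_mul] at he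
    refine (mul_eq_zero.1 ((mul_eq_zero.1 he.symm).resolve_right (pow_ne_zero _ hr0))).resolve_left
      (mul_ne_zero hκ fun h0 => ?_)
    have h1 := hhat a' e' K' hK' x
    rw [h0, zero_mul] at h1
    exact mul_ne_zero (mul_ne_zero (pow_ne_zero _ hr0) (pow_ne_zero _ hx0)) (hat_ne_zero hr h' hx)
      h1.symm
  suffices ha : a = a' ∧ e = e' by
    obtain ⟨rfl, rfl⟩ := ha
    refine ⟨?_, rfl⟩
    have heq := mul_right_cancel₀ hne hid
    rcases lt_trichotomy K K' with hlt | heq' | hlt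
    · have h1 := congrArg (fun P : Polynomial ℂ => P.coeff K') heq
      simp only [Polynomial.coeff_C_mul, hcoeff a e K hK K' hlt.le, if_neg hlt.ne',
        hcoeff a e K' hK' K' le_rfl, if_true] at h1
      exact absurd h1.symm (mul_ne_zero hκ (pow_ne_zero _ hr0))
    · exact heq'
    · have h1 := congrArg (fun P : Polynomial ℂ => P.coeff K) heq
      simp only [Polynomial.coeff_C_mul, hcoeff a e K hK K le_rfl, hcoeff a e K' hK' K hlt.le,
        if_neg hlt.ne', if_true, mul_zero] at h1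
      exact absurd h1 (pow_ne_zero _ hr0)
  -- the mixed case
  have mixed : ∀ b c x : ℂ, b ^ 2 ≠ ((r : ℂ) + 1) ^ 2 → c = 0 ∨ c ^ 2 = 1 →
      1 - b * x + r * x ^ 2 = 0 → 1 - c * x + 0 * x ^ 2 = 0 → False := by
    intro b c x hb hc hx hx'
    rcases hc with rfl | hc
    · simp at hx'
    · have hx2 : x ^ 2 = 1 := by linear_combination -(1 + c * x) * hx' - x ^ 2 * hc
      exact hb (by
        linear_combination -((r : ℂ) + 1 + b * x + ((r : ℂ) * (x ^ 2 - 1))) * hx +
          ((r : ℂ) * (2 * ((r : ℂ) + 1) + r * (x ^ 2 - 1)) - b ^ 2) * hx2)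
  rcases h with ⟨rfl, hb⟩ | ⟨rfl, hb⟩ <;> rcases h' with ⟨rfl, hb'⟩ | ⟨rfl, hb'⟩
  · obtain ⟨x, hx⟩ := exists_root hr (Or.inl ⟨rfl, hb⟩) (Or.inl rfl)
    have hx0 : x ≠ 0 := by rintro rfl; simp at hx
    exact ⟨mul_right_cancel₀ hx0 (by linear_combination key x hx - hx), rfl⟩
  · obtain ⟨x, hx⟩ := exists_root hr (Or.inl ⟨rfl, hb⟩) (Or.inl rfl)
    exact (mixed a a' x hb hb' hx (key x hx)).elim
  · obtain ⟨x, hx⟩ := exists_root hr (Or.inl ⟨rfl, hb'⟩) (Or.inl rfl)
    exact (mixed a' a x hb' hb hx (key' x hx)).elim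
  · rcases eq_or_ne a 0 with rfl | ha
    · rcases eq_or_ne a' 0 with rfl | ha'
      · exact ⟨rfl, rfl⟩
      obtain ⟨x, hx⟩ := exists_root hr (Or.inr ⟨rfl, hb'⟩) (Or.inr ha')
      simpa using key' x hx
    · obtain ⟨x, hx⟩ := exists_root hr (Or.inr ⟨rfl, hb⟩) (Or.inr ha)
      have hx0 : x ≠ 0 := by rintro rfl; simp at hx
      exact ⟨mul_right_cancel₀ hx0 (by linear_combination key x hx - hx), rfl⟩

end Compare

theorem exists_decomp (D : Finset ℕ) (hD : ∀ r ∈ D, r.Prime) :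
    ∀ n : ℕ, n ≠ 0 → ∃ (m : ℕ → ℕ) (n' : ℕ), (∀ r ∈ D, ¬ r ∣ n') ∧ n = (∏ r ∈ D, r ^ m r) * n' := by
  classical
  induction D using Finset.induction with
  | empty => exact fun n _ => ⟨0, n, by simp, by simp⟩
  | @insert r D hrD ih =>
    intro n hn
    obtain ⟨m, x, hx, rfl⟩ := ih (fun s hs => hD s (Finset.mem_insert_of_mem hs)) n hn
    obtain ⟨k, y, hy, rfl⟩ := Nat.exists_eq_pow_mul_and_not_dvd (right_ne_zero_of_mul hn) r
      (hD r (Finset.mem_insert_self r D)).ne_one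
    refine ⟨Function.update m r k, y, fun s hs => ?_, ?_⟩
    · rcases Finset.mem_insert.1 hs with rfl | hs
      · exact hy
      · exact fun hd => hx s hs (hd.mul_left _)
    · have e : ∀ s ∈ D, s ^ Function.update m r k s = s ^ m s := fun s hs => by
        rw [Function.update_of_ne (fun h : s = r => hrD (h ▸ hs))]
      rw [Finset.prod_insert hrD, Function.update_self, Finset.prod_congr rfl e]
      ring

theorem localEuler_newform {M : ℕ} [NeZero M] {g : CuspForm (Gamma0 M) 2} (hg : g.IsNewform)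
    {r : ℕ} (hr : r.Prime) : LocalEuler r (qCoeff g r) (if r ∣ M then 0 else (r : ℂ)) := by
  by_cases hd : r ∣ M
  · rw [if_pos hd]
    refine Or.inr ⟨rfl, ?_⟩
    by_cases hd2 : r ^ 2 ∣ M
    · exact Or.inl (qCoeff_eq_zero_of_sq_dvd hg hr hd2)
    · exact Or.inr (qCoeff_sq_eq_one hg hr hd hd2)
  · rw [if_neg hd]
    exact Or.inl ⟨rfl, RT.Lift.qCoeff_sq_ne hr hd hg.1⟩

theorem hatC_eq {M : ℕ} [NeZero M] (g : CuspForm (Gamma0 M) 2) (r K : ℕ) :
    hatC g r K = ![(r : ℂ) ^ K, -qCoeff g r * ((r : ℂ) ^ K / (r : ℂ) ^ 2),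
      (if r ∣ M then 0 else (r : ℂ)) * ((r : ℂ) ^ K / (r : ℂ) ^ 4)] := by
  funext i
  fin_cases i <;> simp [hatC, eulerC]

theorem shiftT_hat_series_ne_zero {M : ℕ} [NeZero M] {g : CuspForm (Gamma0 M) 2}
    (hg : g.IsNormalizedEigenform) {r K : ℕ} (hr : r.Prime) (hK : 2 ≤ K) :
    ∃ m, shiftT (qCoeff g) r (hatC g r K) (hatE K) m ≠ 0 := by
  by_contra! h
  have h0 : PowerSeries.mk (shiftT (qCoeff g) r (hatC g r K) (hatE K)) = 0 :=
    PowerSeries.ext fun m => by simp [h m]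
  rw [← shiftPoly_mul_mk, mul_eq_zero] at h0
  rcases h0 with h0 | h0
  · have := congrArg (PowerSeries.coeff K) h0
    rw [Polynomial.coeff_coe, map_zero, shiftPoly, Fin.sum_univ_three] at this
    simp only [hatE, hatC, eulerC, Polynomial.coeff_add, Polynomial.coeff_C_mul,
      Polynomial.coeff_X_pow, Fin.val_zero, Fin.val_one, Fin.val_two, Matrix.cons_val_zero,
      Matrix.cons_val_one, Matrix.cons_val_two, Matrix.head_cons, Matrix.tail_cons, tsub_zero,
      if_neg (show K ≠ K - 1 by omega), if_neg (show K ≠ K - 2 by omega), if_true, mul_zero,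
      add_zero, mul_one, one_mul, pow_zero, div_one] at this
    exact pow_ne_zero _ (Nat.cast_ne_zero.2 hr.ne_zero) this
  · simpa [hg.qCoeff_one] using congrArg (PowerSeries.coeff 0) h0

/-- **Strong multiplicity one.** -/
theorem eq_of_almost_all {M M' : ℕ} [NeZero M] [NeZero M'] {g : CuspForm (Gamma0 M) 2}
    {g' : CuspForm (Gamma0 M') 2} (hg : g.IsNewform) (hg' : g'.IsNewform) (S : Finset ℕ)
    (h : ∀ ℓ : ℕ, ℓ.Prime → ℓ ∉ S → qCoeff g ℓ = qCoeff g' ℓ) :
    M = M' ∧ ∀ n, qCoeff g n = qCoeff g' n := by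
  classical
  set D : Finset ℕ := S.filter Nat.Prime ∪ M.primeFactors ∪ M'.primeFactors with hDdef
  have hD : ∀ r ∈ D, r.Prime := fun r hr => by
    simp only [hDdef, Finset.mem_union, Finset.mem_filter] at hr
    rcases hr with (hr | hr) | hr
    exacts [hr.2, Nat.prime_of_mem_primeFactors hr, Nat.prime_of_mem_primeFactors hr]
  have hsub : M.primeFactors ⊆ D ∧ M'.primeFactors ⊆ D :=
    ⟨fun r hr => Finset.mem_union_left _ (Finset.mem_union_right _ hr),
      fun r hr => Finset.mem_union_right _ hr⟩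
  -- the coefficients prime to `D` agree
  have hcop : ∀ n, (∀ r ∈ D, ¬ r ∣ n) → qCoeff g n = qCoeff g' n := by
    intro n
    induction n using Nat.strong_induction_on with
    | h n ih =>
      intro hn
      rcases lt_or_ge n 2 with h2 | h2
      · interval_cases n
        · rw [qCoeff_zero_eq, qCoeff_zero_eq]
        · rw [hg.1.qCoeff_one, hg'.1.qCoeff_one]
      · obtain ⟨k, x, hx, hnx⟩ := Nat.exists_eq_pow_mul_and_not_dvd (show n ≠ 0 by omega)
          n.minFac (Nat.minFac_prime (by omega)).ne_one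
        have hℓ : n.minFac.Prime := Nat.minFac_prime (by omega)
        have hℓD : n.minFac ∉ D := fun hc => hn _ hc (Nat.minFac_dvd n)
        have hℓS : n.minFac ∉ S := fun hc => hℓD (by simp [hDdef, hc, hℓ])
        have hℓM : ¬ n.minFac ∣ M := fun hc =>
          hℓD (hsub.1 (Nat.mem_primeFactors.2 ⟨hℓ, hc, NeZero.ne M⟩))
        have hℓM' : ¬ n.minFac ∣ M' := fun hc =>
          hℓD (hsub.2 (Nat.mem_primeFactors.2 ⟨hℓ, hc, NeZero.ne M'⟩))
        have hk : 1 ≤ k := by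
          rcases k with _ | k
          · exact absurd (Nat.minFac_dvd n) (by rw [pow_zero, one_mul] at hnx; rwa [← hnx] at hx)
          · omega
        have hxn : x < n := by
          have hx0 : 0 < x := Nat.pos_of_ne_zero fun h0 => by rw [h0] at hnx; simp at hnx; omega
          have h1 : n.minFac ≤ n.minFac ^ k := Nat.le_self_pow (by omega) _
          have h2 := hℓ.two_le
          nlinarith
        have hpow : ∀ j, qCoeff g (n.minFac ^ j) = qCoeff g' (n.minFac ^ j) := by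
          intro j
          induction j using Nat.twoStepInduction with
          | zero => rw [pow_zero, hg.1.qCoeff_one, hg'.1.qCoeff_one]
          | one => rw [pow_one]; exact h _ hℓ hℓS
          | more j h0 h1 =>
            rw [hg.1.qCoeff_prime_pow_of_not_dvd _ _ hℓ hℓM,
              hg'.1.qCoeff_prime_pow_of_not_dvd _ _ hℓ hℓM', h _ hℓ hℓS, h0, h1]
        rw [hnx, hg.1.qCoeff_mul_of_coprime _ _ ((hℓ.coprime_iff_not_dvd.2 hx).pow_left k),
          hg'.1.qCoeff_mul_of_coprime _ _ ((hℓ.coprime_iff_not_dvd.2 hx).pow_left k), hpow,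
          ih x hxn fun r hr hd => hn r hr (hnx ▸ hd.mul_left _)]
  obtain ⟨ε, hε, hW⟩ := exists_fricke_eigen hg
  obtain ⟨ε', hε', hW'⟩ := exists_fricke_eigen hg'
  obtain ⟨L, hL, F, Fh, hLeq, hFW, hco⟩ :=
    exists_sieve hg.1 hW (fun r => M'.factorization r + 2) (fun r => by omega) D hD
  obtain ⟨L', hL', F', Fh', hLeq', hFW', hco'⟩ :=
    exists_sieve hg'.1 hW' (fun r => M.factorization r + 2) (fun r => by omega) D hD
  have hfact : ∀ N : ℕ, N ≠ 0 → N.primeFactors ⊆ D → ∏ r ∈ D, r ^ N.factorization r = N :=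
    fun N hN hND => by
      conv_rhs => rw [← Nat.prod_factorization_pow_eq_self hN, Finsupp.prod,
        Nat.support_factorization]
      exact (Finset.prod_subset hND fun r _ hr => by
        rw [Finsupp.notMem_support_iff.1 (by rwa [Nat.support_factorization]), pow_zero]).symm
  obtain rfl : L' = L := by
    simp only [pow_add, Finset.prod_mul_distrib, hfact M (NeZero.ne M) hsub.1,
      hfact M' (NeZero.ne M') hsub.2] at hLeq hLeq'
    rw [hLeq, hLeq']
    ring
  -- the sieved forms agree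
  have hF : F = F' := eq_of_forall_qCoeff fun n => by
    rcases eq_or_ne n 0 with rfl | hn
    · rw [qCoeff_zero_eq, qCoeff_zero_eq]
    obtain ⟨m, x, hx, rfl⟩ := exists_decomp D hD n hn
    rw [(hco m x hx).1, (hco' m x hx).1, hcop x hx]
    congr 1
    exact Finset.prod_congr rfl fun r hr => by
      rw [shiftT_euler hg.1 (hD r hr), shiftT_euler hg'.1 (hD r hr)]
  have hFh : ε • ⇑Fh = ε' • ⇑Fh' := hFW.symm.trans (hF ▸ hFW')
  have hFh' : ε • Fh = ε' • Fh' := DFunLike.coe_injective hFh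
  set T := fun r => shiftT (qCoeff g) r (hatC g r (M'.factorization r + 2))
    (hatE (M'.factorization r + 2))
  set T' := fun r => shiftT (qCoeff g') r (hatC g' r (M.factorization r + 2))
    (hatE (M.factorization r + 2))
  have hprod : ∀ m : ℕ → ℕ, ε * ∏ r ∈ D, T r (m r) = ε' * ∏ r ∈ D, T' r (m r) := fun m => by
    have h1 : ∀ r ∈ D, ¬ r ∣ 1 := fun r hr => (hD r hr).not_dvd_one
    have := congrArg (fun G : CuspForm (Gamma0 L') 2 => qCoeff G ((∏ r ∈ D, r ^ m r) * 1)) hFh'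
    simp only [qCoeff_smul] at this
    rwa [(hco m 1 h1).2, (hco' m 1 h1).2, hg.1.qCoeff_one, hg'.1.qCoeff_one, mul_one,
      mul_one] at this
  -- one prime at a time
  have hloc : ∀ q ∈ D, M'.factorization q + 2 = M.factorization q + 2 ∧
      qCoeff g q = qCoeff g' q := by
    intro q hq
    have hq' := hD q hq
    choose m₀ hm₀ using fun r : {r // r ∈ D} => shiftT_hat_series_ne_zero hg.1 (hD r r.2)
      (show 2 ≤ M'.factorization (r : ℕ) + 2 by omega)
    set m : ℕ → ℕ := fun r => if hr : r ∈ D then m₀ ⟨r, hr⟩ else 0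
    have hA : ε * ∏ r ∈ D.erase q, T r (m r) ≠ 0 := mul_ne_zero hε
      (Finset.prod_ne_zero_iff.2 fun r hr => by
        have hr' := (Finset.mem_erase.1 hr).2
        simpa only [T, m, dif_pos hr'] using hm₀ ⟨r, hr'⟩)
    set κ := (ε' * ∏ r ∈ D.erase q, T' r (m r)) / (ε * ∏ r ∈ D.erase q, T r (m r))
    have hser : PowerSeries.mk (T q) = PowerSeries.C κ * PowerSeries.mk (T' q) := by
      refine PowerSeries.ext fun j => ?_
      rw [PowerSeries.coeff_C_mul, PowerSeries.coeff_mk, PowerSeries.coeff_mk, div_mul_eq_mul_div,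
        eq_div_iff hA]
      have := hprod (Function.update m q j)
      have e : ∀ U : ℕ → ℕ → ℂ, ∏ r ∈ D.erase q, U r (Function.update m q j r) =
          ∏ r ∈ D.erase q, U r (m r) := fun U => Finset.prod_congr rfl fun r hr => by
        rw [Function.update_of_ne (Finset.mem_erase.1 hr).1]
      rw [← Finset.mul_prod_erase D _ hq, ← Finset.mul_prod_erase D _ hq,
        Function.update_self, e, e] at this
      linear_combination this
    have hone : ∀ {N : ℕ} [NeZero N] {f : CuspForm (Gamma0 N) 2}, f.IsNormalizedEigenform →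
        (shiftPoly (eulerC f q) (fun i => (i : ℕ)) : PowerSeries ℂ) *
          PowerSeries.mk (fun j => qCoeff f (q ^ j)) = 1 := fun hf => by
      rw [shiftPoly_mul_mk]
      exact PowerSeries.ext fun j => by rw [PowerSeries.coeff_mk, shiftT_euler hf hq',
        PowerSeries.coeff_one]
    simp only [T, T', ← shiftPoly_mul_mk] at hser
    have hid : shiftPoly (hatC g q (M'.factorization q + 2)) (hatE (M'.factorization q + 2)) *
          shiftPoly (eulerC g' q) (fun i => (i : ℕ)) =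
        Polynomial.C κ * shiftPoly (hatC g' q (M.factorization q + 2))
          (hatE (M.factorization q + 2)) * shiftPoly (eulerC g q) (fun i => (i : ℕ)) := by
      refine Polynomial.coe_inj.1 ?_
      rw [Polynomial.coe_mul, Polynomial.coe_mul, Polynomial.coe_mul, Polynomial.coe_C]
      linear_combination ((shiftPoly (eulerC g' q) (fun i => (i : ℕ)) : PowerSeries ℂ) *
          (shiftPoly (eulerC g q) (fun i => (i : ℕ)) : PowerSeries ℂ)) * hser -
        ((shiftPoly (hatC g q (M'.factorization q + 2)) (hatE (M'.factorization q + 2)) :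
          PowerSeries ℂ) * (shiftPoly (eulerC g' q) (fun i => (i : ℕ)) : PowerSeries ℂ)) * hone hg.1 +
        (PowerSeries.C κ * (shiftPoly (hatC g' q (M.factorization q + 2))
          (hatE (M.factorization q + 2)) : PowerSeries ℂ) *
          (shiftPoly (eulerC g q) (fun i => (i : ℕ)) : PowerSeries ℂ)) * hone hg'.1
    rw [hatC_eq, hatC_eq] at hid
    exact euler_eq_of_identity hq' (by omega) (by omega) (localEuler_newform hg hq')
      (localEuler_newform hg' hq') hid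
  obtain rfl : M = M' := Nat.eq_of_factorization_eq (NeZero.ne M) (NeZero.ne M') fun r => by
    by_cases hr : r ∈ D
    · have := (hloc r hr).1
      omega
    · rw [Finsupp.notMem_support_iff.1 fun hc => hr (hsub.1 (by rwa [Nat.support_factorization] at hc)),
        Finsupp.notMem_support_iff.1 fun hc => hr (hsub.2 (by rwa [Nat.support_factorization] at hc))]
  refine ⟨rfl, fun n => ?_⟩
  have := eq_smul_of_eigen hg (f := g') fun ℓ hℓ hℓM => by
    rw [hOp_of_isNormalizedEigenform hg'.1 hℓ]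
    congr 1
    by_cases hr : ℓ ∈ D
    · exact (hloc ℓ hr).2.symm
    · exact (h ℓ hℓ fun hc => hr (by simp [hDdef, hc, hℓ])).symm
  rw [hg'.1.qCoeff_one, one_smul] at this
  rw [this]

end Fermat.Agent.Newforms
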